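import Fermat.Agent.QuaternionNormalizer.Normalizer
import Fermat.Agent.QuaternionCurve.Genus

/-!
# The signature `(2, 4, 6)`

The normaliser contains the units with index `4`, so has area `π / 6`.  Elements of norm `2` and
`3` fix `i` and `u (1 + i)` with orders `8` and `12`, and these points lie in different orbits as
their indices in the units differ; the formula of Gauss and Bonnet then leaves one possibility.
-/

set_option autoImplicit false
set_option linter.unusedSectionVars false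
set_option linter.style.haveILetI false

noncomputable section

open Set Filter Topology Matrix
open UpperHalfPlane hiding I
open scoped MatrixGroups Real
open FA.Horocycle FA.QuaternionHecke FA.CocompactForms FA.CocompactDegree FA.CocompactGaussBonnet
open FA.QuaternionCurve

namespace FA.QuaternionNormalizer

theorem eq_of_mem_both {d d' : ℕ} (hd : d ∣ 6) (hd' : d' ∣ 6) {g : SL(2, ℝ)} (hg : g ∈ normSet d)
    (hg' : g ∈ normSet d') : d = d' := by
  have h : 1 ∈ normSet (d * d') := by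
    have := mul_mem_normSet hg (inv_mem_normSet hg')
    rwa [mul_inv_cancel] at this
  obtain ⟨t, ht⟩ : ∃ t : ℤ, Real.sqrt ((d * d' : ℕ) : ℝ) = t := by
    obtain ⟨T, hT⟩ := exists_trace (show Real.sqrt ((d * d' : ℕ) : ℝ) •
      (1 : Matrix (Fin 2) (Fin 2) ℝ) ∈ order from h)
    simp at hT
    obtain ⟨q, hq⟩ := h
    have e00 := congrFun (congrFun hq 0) 0
    have e11 := congrFun (congrFun hq 1) 1
    have e01 := congrFun (congrFun hq 0) 1
    have e10 := congrFun (congrFun hq 1) 0
    simp [hurMat, realQuat] at e00 e01 e10 e11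
    have h4 : (q.2.2.2 : ℝ) = 0 := (mul_eq_zero.1
      (show (q.2.2.2 : ℝ) * Real.sqrt 3 = 0 by linarith)).resolve_right (by positivity)
    refine ⟨q.1, ?_⟩
    push_cast
    rw [h4] at e00 e11
    rw [Real.sqrt_mul (Nat.cast_nonneg d)]
    linarith
  have hsq : t ^ 2 = ((d * d' : ℕ) : ℤ) := by
    have := congrArg (· ^ 2) ht
    simp only [Real.sq_sqrt (Nat.cast_nonneg _)] at this
    exact_mod_cast this.symm
  have hbound : t.natAbs ^ 2 = d * d' := by
    rw [← Int.natAbs_pow, hsq, Int.natAbs_natCast]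
  have hle : t.natAbs ≤ 6 := by
    have h1 := Nat.le_of_dvd (by norm_num) hd
    have h2 := Nat.le_of_dvd (by norm_num) hd'
    nlinarith
  rcases cases_of_dvd_six hd with rfl | rfl | rfl | rfl <;>
    rcases cases_of_dvd_six hd' with rfl | rfl | rfl | rfl <;>
    interval_cases ht' : t.natAbs <;> simp_all

theorem neg_one_mem_units : (-1 : SL(2, ℝ)) ∈ unitsNormalizer :=
  le_unitsNormalizer neg_one_mem

theorem trivCard_unitsNormalizer : trivCard unitsNormalizer = 2 :=
  CocompactHurwitz.trivCard_eq.1 neg_one_mem_units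

/-- **The index is `4`.** -/
theorem relIndex_unitsNormalizer : orderUnits.relIndex unitsNormalizer = 4 := by
  choose w hw using fun d : {d : ℕ // d ∣ 6} => exists_class d.2
  set K : Subgroup unitsNormalizer := orderUnits.subgroupOf unitsNormalizer with hK
  let v : {d : ℕ // d ∣ 6} → unitsNormalizer := fun d =>
    ⟨w d, mem_unitsNormalizer_of d.2 (hw d)⟩
  let f : {d : ℕ // d ∣ 6} → unitsNormalizer ⧸ K := fun d => QuotientGroup.mk (v d)
  have hf : Function.Bijective f := by
    constructor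
    · intro d d' h
      have h1 : (v d)⁻¹ * v d' ∈ K := (QuotientGroup.eq (s := K)).1 h
      have hmem : (w d)⁻¹ * w d' ∈ normSet 1 := by
        rw [normSet_one]
        exact h1
      have h2 : w d' ∈ normSet (d : ℕ) := by
        have := mul_mem_normSet (hw d) hmem
        rwa [mul_inv_cancel_left, mul_one] at this
      exact Subtype.ext (eq_of_mem_both d.2 d'.2 h2 (hw d'))
    · intro x
      obtain ⟨⟨g, hg⟩, rfl⟩ := QuotientGroup.mk_surjective (s := K) x
      obtain ⟨d, hd, hgd⟩ := mem_unitsNormalizer.1 hg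
      refine ⟨⟨d, hd⟩, (QuotientGroup.eq (s := K)).2 ?_⟩
      show (w ⟨d, hd⟩)⁻¹ * g ∈ orderUnits
      have := mul_inv_mem hd (inv_mem_normSet (hw ⟨d, hd⟩)) (inv_mem_normSet hgd)
      rwa [inv_inv] at this
  have hc : Nat.card {d : ℕ // d ∣ 6} = 4 := by
    rw [Nat.card_congr (Equiv.subtypeEquivRight (q := fun d => d ∈ Nat.divisors 6)
      fun d => by simp), Nat.card_eq_finsetCard]
    decide
  rw [Subgroup.relIndex, Subgroup.index, ← Nat.card_eq_of_bijective f hf, hc]

theorem area_unitsNormalizer : area unitsNormalizer = π / 6 := by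
  have h := CocompactHurwitz.area_mul le_unitsNormalizer
  rw [trivCard_unitsNormalizer, trivCard_orderUnits, relIndex_unitsNormalizer,
    area_eq_dimension.1] at h
  push_cast at h
  linarith

theorem dvd_ramIndex {g : SL(2, ℝ)} (hg : g ∈ unitsNormalizer) {z : ℍ} (hz : g • z = z) {m : ℕ}
    (hm : orderOf g = 2 * m) : m ∣ ramIndex unitsNormalizer z := by
  have hmem : (⟨g, hg⟩ : unitsNormalizer) ∈ MulAction.stabilizer unitsNormalizer z := hz
  have h := orderOf_dvd_natCard (⟨⟨g, hg⟩, hmem⟩ : MulAction.stabilizer unitsNormalizer z)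
  rw [Subgroup.orderOf_mk, Subgroup.orderOf_mk, hm, ← ramIndex_mul,
    trivCard_unitsNormalizer, mul_comm 2] at h
  exact Nat.dvd_of_mul_dvd_mul_right two_pos h

theorem four_dvd_ramIndex : 4 ∣ ramIndex unitsNormalizer UpperHalfPlane.I := by
  obtain ⟨g, hg, hgX⟩ := exists_normSet (n := 2) (x := hurMat (1, 1, 0, 0)) ⟨_, rfl⟩
    (by simp [det_hurMat, hurNorm])
  have hs : Real.sqrt (2 : ℕ) * Real.sqrt (2 : ℕ) = 2 := by
    rw [Real.mul_self_sqrt (Nat.cast_nonneg 2)]
    norm_num
  set M : Matrix (Fin 2) (Fin 2) ℝ := (g : Matrix (Fin 2) (Fin 2) ℝ)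
  have h2 : M * M = hurMat (0, 1, 0, 0) := by
    refine smul_right_injective _ (two_ne_zero (α := ℝ)) ?_
    show (2 : ℝ) • (M * M) = (2 : ℝ) • _
    rw [← hs, ← smul_mul_smul_comm, hgX, hs]
    ext i j
    fin_cases i <;> fin_cases j <;>
      simp [hurMat, realQuat, Matrix.mul_apply, Fin.sum_univ_two] <;> norm_num
  have h4 : g ^ 4 = -1 := by
    refine Matrix.SpecialLinearGroup.ext _ _ fun i j => ?_
    show (M ^ 4) i j = (-1 : Matrix (Fin 2) (Fin 2) ℝ) i j
    rw [show M ^ 4 = M * M * (M * M) by simp only [pow_succ, pow_zero, one_mul, Matrix.mul_assoc],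
      h2]
    fin_cases i <;> fin_cases j <;> simp [hurMat, realQuat, Matrix.mul_apply, Fin.sum_univ_two]
  have h8 : g ^ 8 = 1 := by
    rw [show (8 : ℕ) = 4 * 2 by norm_num, pow_mul, h4, neg_one_sq]
  have hord : orderOf g = 2 * 4 := orderOf_eq_prime_pow (p := 2) (n := 2)
    (fun h => CocompactHurwitz.one_ne_neg_one (h.symm.trans h4)) h8
  refine dvd_ramIndex (mem_unitsNormalizer_of (by norm_num) hg) ?_ hord
  rw [UpperHalfPlane.ext_iff, coe_smul_eq_mob, mob,
    div_eq_iff (jac_ne_zero _ UpperHalfPlane.I.im_ne_zero), jac]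
  have e : ∀ i j, g i j = (Real.sqrt (2 : ℕ))⁻¹ * hurMat (1, 1, 0, 0) i j := fun i j => by
    rw [← hgX, Matrix.smul_apply, smul_eq_mul, inv_mul_cancel_left₀]
    positivity
  simp [e, hurMat, realQuat]
  linear_combination ((Real.sqrt 2 : ℂ))⁻¹ * Complex.I_mul_I

theorem six_dvd_ramIndex : 6 ∣ ramIndex unitsNormalizer (ptThree 1) := by
  obtain ⟨g, hg, hgX⟩ := exists_normSet (n := 3) (x := hurMat (1, 1, -1, 1)) ⟨_, rfl⟩
    (by simp [det_hurMat, hurNorm])
  have hs : Real.sqrt (3 : ℕ) * Real.sqrt (3 : ℕ) = 3 := by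
    rw [Real.mul_self_sqrt (Nat.cast_nonneg 3)]
    norm_num
  have hh := Real.mul_self_sqrt (show (0 : ℝ) ≤ 3 by norm_num)
  set M : Matrix (Fin 2) (Fin 2) ℝ := (g : Matrix (Fin 2) (Fin 2) ℝ)
  have h2 : M * M = hurMat (0, 1, -1, 1) := by
    refine smul_right_injective _ (three_ne_zero (α := ℝ)) ?_
    show (3 : ℝ) • (M * M) = (3 : ℝ) • _
    rw [← hs, ← smul_mul_smul_comm, hgX, hs]
    ext i j
    fin_cases i <;> fin_cases j <;>
      simp [hurMat, realQuat, Matrix.mul_apply, Fin.sum_univ_two] <;> grind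
  have h4 : M ^ 4 = hurMat (-1, 1, -1, 1) := by
    rw [show M ^ 4 = M * M * (M * M) by simp only [pow_succ, pow_zero, one_mul, Matrix.mul_assoc],
      h2]
    ext i j
    fin_cases i <;> fin_cases j <;>
      simp [hurMat, realQuat, Matrix.mul_apply, Fin.sum_univ_two] <;> grind
  have h6 : g ^ 6 = -1 := by
    refine Matrix.SpecialLinearGroup.ext _ _ fun i j => ?_
    show (M ^ 6) i j = (-1 : Matrix (Fin 2) (Fin 2) ℝ) i j
    rw [show M ^ 6 = M ^ 4 * (M * M) by rw [← sq, ← pow_add], h4, h2]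
    fin_cases i <;> fin_cases j <;>
      simp [hurMat, realQuat, Matrix.mul_apply, Fin.sum_univ_two] <;> grind
  have h12 : g ^ 12 = 1 := by
    rw [show (12 : ℕ) = 6 * 2 by norm_num, pow_mul, h6, neg_one_sq]
  have hord : orderOf g = 2 * 6 := by
    have hd := orderOf_dvd_of_pow_eq_one h12
    have n4 : ¬orderOf g ∣ 4 := fun h => by
      have e0 : g ^ 4 = 1 := orderOf_dvd_iff_pow_eq_one.1 h
      have e : (M ^ 4) 0 0 = (1 : Matrix (Fin 2) (Fin 2) ℝ) 0 0 :=
        congrArg (fun x : SL(2, ℝ) => x 0 0) e0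
      rw [h4] at e
      simp [hurMat, realQuat] at e
      nlinarith [hh]
    have n6 : ¬orderOf g ∣ 6 := fun h =>
      CocompactHurwitz.one_ne_neg_one ((orderOf_dvd_iff_pow_eq_one.1 h).symm.trans h6)
    have h1 := Nat.le_of_dvd (by norm_num) hd
    interval_cases horder : orderOf g <;> omega
  refine dvd_ramIndex (mem_unitsNormalizer_of (by norm_num) hg) ?_ hord
  rw [UpperHalfPlane.ext_iff, coe_smul_eq_mob, mob,
    div_eq_iff (jac_ne_zero _ (ptThree 1).im_ne_zero), jac]
  have e : ∀ i j, g i j = (Real.sqrt (3 : ℕ))⁻¹ * hurMat (1, 1, -1, 1) i j := fun i j => by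
    rw [← hgX, Matrix.smul_apply, smul_eq_mul, inv_mul_cancel_left₀]
    positivity
  simp [e, hurMat, realQuat, ptThree, Complex.ext_iff]
  constructor <;> grind

theorem ramIndex_conj {g : SL(2, ℝ)} (hg : g ∈ unitsNormalizer) (z : ℍ) :
    ramIndex orderUnits (g • z) = ramIndex orderUnits z := by
  have h := Subgroup.mem_normalizer_iff.1 hg
  rw [ramIndex, ramIndex]
  congr 1
  refine (Nat.card_congr (Equiv.ofBijective
    (fun γ : MulAction.stabilizer orderUnits z =>
      (⟨⟨g * (γ.1 : SL(2, ℝ)) * g⁻¹, (h _).1 γ.1.2⟩, ?_⟩ :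
        MulAction.stabilizer orderUnits (g • z)))
    ⟨fun γ δ e => ?_, fun γ => ?_⟩)).symm
  · have e : (γ.1 : SL(2, ℝ)) • z = z := γ.2
    show (g * (γ.1 : SL(2, ℝ)) * g⁻¹) • (g • z) = g • z
    rw [← mul_smul, inv_mul_cancel_right, mul_smul, e]
  · have e' := congrArg (fun x : MulAction.stabilizer orderUnits (g • z) => (x.1 : SL(2, ℝ))) e
    exact Subtype.ext (Subtype.ext (mul_left_cancel (mul_right_cancel e')))
  · refine ⟨⟨⟨g⁻¹ * (γ.1 : SL(2, ℝ)) * g, (h _).2 ?_⟩, ?_⟩, ?_⟩
    · rw [show g * (g⁻¹ * (γ.1 : SL(2, ℝ)) * g) * g⁻¹ = γ.1 by group]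
      exact γ.1.2
    · have e : (γ.1 : SL(2, ℝ)) • g • z = g • z := γ.2
      show (g⁻¹ * (γ.1 : SL(2, ℝ)) * g) • z = z
      rw [mul_smul, mul_smul, e, inv_smul_smul]
    · exact Subtype.ext (Subtype.ext (by group))

theorem exists_three {ι : Type*} (s : Finset ι) (e : ι → ℕ) (he : ∀ x ∈ s, 2 ≤ e x) {a b : ι}
    (ha : a ∈ s) (hb : b ∈ s) (hab : a ≠ b) (h4 : 4 ∣ e a) (h6 : 6 ∣ e b)
    (hsum : ∑ x ∈ s, (1 - 1 / (e x : ℝ)) = 25 / 12) :
    ∃ c ∈ s, c ≠ a ∧ c ≠ b ∧ e a = 4 ∧ e b = 6 ∧ e c = 2 ∧ ∀ x ∈ s, x = a ∨ x = b ∨ x = c := by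
  classical
  have hb' : b ∈ s.erase a := Finset.mem_erase.2 ⟨hab.symm, hb⟩
  rw [← Finset.add_sum_erase _ _ ha, ← Finset.add_sum_erase _ _ hb'] at hsum
  set t := (s.erase a).erase b with ht
  have ea : 4 ≤ e a := Nat.le_of_dvd (by linarith [he a ha]) h4
  have eb : 6 ≤ e b := Nat.le_of_dvd (by linarith [he b hb]) h6
  have fa : 1 / (e a : ℝ) ≤ 1 / 4 := one_div_le_one_div_of_le (by norm_num) (by exact_mod_cast ea)
  have fb : 1 / (e b : ℝ) ≤ 1 / 6 := one_div_le_one_div_of_le (by norm_num) (by exact_mod_cast eb)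
  have fa' : 0 < 1 / (e a : ℝ) := by
    have : (0 : ℝ) < e a := Nat.cast_pos.2 (by linarith)
    positivity
  have fb' : 0 < 1 / (e b : ℝ) := by
    have : (0 : ℝ) < e b := Nat.cast_pos.2 (by linarith)
    positivity
  have hterm : ∀ x ∈ t, 1 / 2 ≤ 1 - 1 / (e x : ℝ) := fun x hx => by
    have := inv_le_half (he x (Finset.mem_of_mem_erase (Finset.mem_of_mem_erase hx)))
    linarith
  have hcard := Finset.card_nsmul_le_sum t _ _ hterm
  rw [nsmul_eq_mul] at hcard
  have h1 : t.card ≤ 1 := by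
    have : (t.card : ℝ) ≤ 1 := by linarith
    exact_mod_cast this
  have h0 : t.card ≠ 0 := fun h => by
    rw [Finset.card_eq_zero.1 h, Finset.sum_empty] at hsum
    linarith
  obtain ⟨c, hc⟩ := Finset.card_eq_one.1 (show t.card = 1 by omega)
  have hct : c ∈ t := hc ▸ Finset.mem_singleton_self c
  have fc := hterm c hct
  rw [hc, Finset.sum_singleton] at hsum
  have hcs : c ∈ s := Finset.mem_of_mem_erase (Finset.mem_of_mem_erase hct)
  have key : ∀ x ∈ s, ∀ k : ℕ, 0 < k → 1 / (e x : ℝ) = 1 / k → e x = k := fun x hx k hk h => by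
    rw [one_div, one_div, _root_.inv_inj] at h
    exact_mod_cast h
  refine ⟨c, hcs, Finset.ne_of_mem_erase (Finset.mem_of_mem_erase hct),
    Finset.ne_of_mem_erase hct, key a ha 4 (by norm_num) (by push_cast; linarith),
    key b hb 6 (by norm_num) (by push_cast; linarith),
    key c hcs 2 (by norm_num) (by push_cast; linarith), fun x hx => ?_⟩
  by_cases hxa : x = a
  · exact .inl hxa
  by_cases hxb : x = b
  · exact .inr (.inl hxb)
  have : x ∈ t := Finset.mem_erase.2 ⟨hxb, Finset.mem_erase.2 ⟨hxa, hx⟩⟩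
  rw [hc] at this
  exact .inr (.inr (Finset.mem_singleton.1 this))

/-- **The signature.** -/
theorem signature :
    ellipticDefect unitsNormalizer = 25 / 12 ∧
    ∃ P : Fin 3 → ℍ, P 0 = UpperHalfPlane.I ∧ P 1 = ptThree 1 ∧
      (∀ i, ramIndex unitsNormalizer (P i) = ![4, 6, 2] i) ∧
      (∀ i j, P j ∈ MulAction.orbit unitsNormalizer (P i) → i = j) ∧
      (∀ z : ℍ, ramIndex unitsNormalizer z ≠ 1 → ∃ i, z ∈ MulAction.orbit unitsNormalizer (P i)) ∧
      ∀ m : ℕ, floorSum unitsNormalizer m = m / 2 + 3 * m / 4 + 5 * m / 6 := by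
  classical
  set s := (finite_elliptic unitsNormalizer).toFinset with hs
  set a : Orb unitsNormalizer := Quotient.mk'' UpperHalfPlane.I with ha'
  set b : Orb unitsNormalizer := Quotient.mk'' (ptThree 1) with hb'
  set e : Orb unitsNormalizer → ℕ := fun x => ramIndex unitsNormalizer x.out with he
  have hout : ∀ z : ℍ, e (Quotient.mk'' z) = ramIndex unitsNormalizer z := fun z => by
    obtain ⟨γ, hγ⟩ := MulAction.orbitRel_apply.1 (Quotient.exact
      (Quotient.out_eq (Quotient.mk'' z : Orb unitsNormalizer)))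
    show ramIndex unitsNormalizer _ = _
    rw [← hγ, ramIndex_smul]
  have h4 : 4 ∣ e a := by rw [ha', hout]; exact four_dvd_ramIndex
  have h6 : 6 ∣ e b := by rw [hb', hout]; exact six_dvd_ramIndex
  have hab : a ≠ b := fun h => by
    obtain ⟨γ, hγ⟩ := MulAction.orbitRel_apply.1 (Quotient.exact h)
    have e1 : (γ : SL(2, ℝ)) • ptThree 1 = UpperHalfPlane.I := hγ
    have e2 := ramIndex_conj γ.2 (ptThree 1)
    have r0 := ramIndex_pts 0
    have r2 := ramIndex_pts 2
    rw [e1] at e2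
    simp [ellipticPts] at r0 r2
    omega
  have hmem : ∀ x, 1 < e x → x ∈ s := fun x hx =>
    (finite_elliptic unitsNormalizer).mem_toFinset.2 (show ramIndex unitsNormalizer x.out ≠ 1 by
      simp only [he] at hx
      omega)
  have hge : ∀ x ∈ s, 2 ≤ e x := fun x hx => by
    have h1 := ramIndex_pos unitsNormalizer x.out
    have h2 : ramIndex unitsNormalizer x.out ≠ 1 :=
      (finite_elliptic unitsNormalizer).mem_toFinset.1 hx
    simp only [he]
    omega
  have ha : a ∈ s := hmem a (by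
    have := Nat.le_of_dvd (ramIndex_pos unitsNormalizer a.out) h4
    simp only [he] at this ⊢
    omega)
  have hb : b ∈ s := hmem b (by
    have := Nat.le_of_dvd (ramIndex_pos unitsNormalizer b.out) h6
    simp only [he] at this ⊢
    omega)
  obtain ⟨g, hg, -⟩ := exists_genus unitsNormalizer
  rw [area_unitsNormalizer] at hg
  have hD : ellipticDefect unitsNormalizer = 25 / 12 - 2 * (g : ℝ) :=
    mul_left_cancel₀ Real.pi_ne_zero (by linear_combination (-1 / 2 : ℝ) * hg)
  have hlow : 19 / 12 ≤ ellipticDefect unitsNormalizer := by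
    have hsub : ({a, b} : Finset (Orb unitsNormalizer)) ⊆ s := by
      simp [Finset.insert_subset_iff, ha, hb]
    refine le_trans ?_ (Finset.sum_le_sum_of_subset_of_nonneg hsub fun x hx _ => ?_)
    · rw [Finset.sum_pair hab]
      have fa : 1 / (e a : ℝ) ≤ 1 / 4 := one_div_le_one_div_of_le (by norm_num)
        (by exact_mod_cast Nat.le_of_dvd (ramIndex_pos _ _) h4)
      have fb : 1 / (e b : ℝ) ≤ 1 / 6 := one_div_le_one_div_of_le (by norm_num)
        (by exact_mod_cast Nat.le_of_dvd (ramIndex_pos _ _) h6)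
      simp only [he] at fa fb
      linarith
    · have := inv_le_half (hge x hx)
      simp only [he] at this
      linarith
  have hg0 : g = 0 := by
    by_contra h
    have : (1 : ℝ) ≤ g := by exact_mod_cast Nat.one_le_iff_ne_zero.2 h
    linarith
  rw [hg0, Nat.cast_zero, mul_zero, sub_zero] at hD
  obtain ⟨c, hc, hca, hcb, ea, eb, ec, hall⟩ :=
    exists_three s e hge ha hb hab h4 h6 hD
  refine ⟨hD, ![UpperHalfPlane.I, ptThree 1, c.out], rfl, rfl, fun i => ?_, fun i j h => ?_,
    fun z hz => ?_, fun m => ?_⟩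
  · fin_cases i
    · exact (hout _).symm.trans ea
    · exact (hout _).symm.trans eb
    · exact ec
  · have h' : (Quotient.mk'' (![UpperHalfPlane.I, ptThree 1, c.out] j) : Orb unitsNormalizer) =
        Quotient.mk'' (![UpperHalfPlane.I, ptThree 1, c.out] i) :=
      Quotient.sound (MulAction.orbitRel_apply.2 h)
    fin_cases i <;> fin_cases j <;>
      simp [← ha', ← hb', Quotient.out_eq, hab, hab.symm, hca, hcb, hca.symm, hcb.symm] at h' ⊢
  · have hzs : (Quotient.mk'' z : Orb unitsNormalizer) ∈ s :=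
      hmem _ (by rw [hout]; have := ramIndex_pos unitsNormalizer z; omega)
    rcases hall _ hzs with h | h | h
    · exact ⟨0, MulAction.orbitRel_apply.1 (Quotient.exact h)⟩
    · exact ⟨1, MulAction.orbitRel_apply.1 (Quotient.exact h)⟩
    · exact ⟨2, MulAction.orbitRel_apply.1 (Quotient.exact (h.trans c.out_eq.symm))⟩
  · have hs3 : s = {a, b, c} := by
      ext x
      simp only [Finset.mem_insert, Finset.mem_singleton]
      refine ⟨hall x, ?_⟩
      rintro (rfl | rfl | rfl) <;> assumption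
    rw [floorSum, ← hs, hs3, Finset.sum_insert (by simp [hab, hca.symm]),
      Finset.sum_pair hcb.symm]
    simp only [he] at ea eb ec
    rw [ea, eb, ec]
    norm_num [mul_comm m]
    omega

theorem dimension : ∀ᶠ m : ℕ in atTop,
    (Module.finrank ℂ (forms unitsNormalizer ((2 * m : ℕ) : ℤ)) : ℤ) =
      1 - 2 * (m : ℤ) + ((m / 2 : ℕ) : ℤ) + ((3 * m / 4 : ℕ) : ℤ) + ((5 * m / 6 : ℕ) : ℤ) := by
  obtain ⟨hD, P, -, -, -, -, -, hfloor⟩ := signature
  obtain ⟨g, hg, hdim⟩ := exists_genus unitsNormalizer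
  rw [area_unitsNormalizer, hD] at hg
  have hg0 : (g : ℝ) = 0 := by
    have := mul_left_cancel₀ Real.pi_ne_zero
      (show π * (2 * (2 * (g : ℝ) - 2 + 25 / 12) - 1 / 6) = π * 0 by linear_combination -hg)
    linarith
  have : g = 0 := by exact_mod_cast hg0
  subst this
  refine hdim.mono fun m hm => ?_
  rw [hm, hfloor]
  push_cast
  ring

end FA.QuaternionNormalizer

end
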