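import Fermat.Agent.QuaternionEmbedding.Saturation
import Fermat.Agent.QuaternionHecke.Lattice

/-!
# The elements whose norm divides `6`

At a ramified prime an element of norm divisible by `p` has trace divisible by `p`, and one of norm
divisible by `p ^ 2` is divisible by `p`.  So for `d ∣ 6` the elements of norm `d` form one class
and normalise the order.
-/

set_option autoImplicit false
set_option linter.unusedSectionVars false
set_option linter.style.haveILetI false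

noncomputable section

open Matrix Set
open scoped MatrixGroups
open FA.Horocycle FA.QuaternionHecke FA.QuaternionEmbedding

namespace FA.QuaternionNormalizer

theorem two_dvd_trace {a b c e : ℤ} (h : (2 : ℤ) ∣ hurNorm (a, b, c, e)) :
    (2 : ℤ) ∣ 2 * a + e := by
  have h' := (ZMod.intCast_zmod_eq_zero_iff_dvd _ 2).2 h
  simp only [hurNorm] at h'
  push_cast at h'
  have key : ∀ a b c e : ZMod 2, a ^ 2 + a * e + b ^ 2 + b * e - 3 * c ^ 2 - 3 * (c * e) - e ^ 2 =
      0 → 2 * a + e = 0 := by decide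
  exact_mod_cast (ZMod.intCast_zmod_eq_zero_iff_dvd (2 * a + e) 2).1
    (by push_cast; exact key _ _ _ _ h')

theorem three_dvd_trace {a b c e : ℤ} (h : (3 : ℤ) ∣ hurNorm (a, b, c, e)) :
    (3 : ℤ) ∣ 2 * a + e := by
  have h' := (ZMod.intCast_zmod_eq_zero_iff_dvd _ 3).2 h
  simp only [hurNorm] at h'
  push_cast at h'
  have key : ∀ a b c e : ZMod 3, a ^ 2 + a * e + b ^ 2 + b * e - 3 * c ^ 2 - 3 * (c * e) - e ^ 2 =
      0 → 2 * a + e = 0 := by decide
  exact_mod_cast (ZMod.intCast_zmod_eq_zero_iff_dvd (2 * a + e) 3).1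
    (by push_cast; exact key _ _ _ _ h')

/-- At `2` and at `3` an element of norm divisible by `p ^ 2` is divisible by `p`. -/
theorem div_mem_prime {p : ℕ} (hp : p = 2 ∨ p = 3) {y : Matrix (Fin 2) (Fin 2) ℝ}
    (hy : y ∈ order) {N : ℤ} (hN : y.det = N) (h : (p : ℤ) ^ 2 ∣ N) :
    (p : ℝ)⁻¹ • y ∈ order := by
  obtain ⟨T, hT⟩ := exists_trace hy
  have htr : (p : ℤ) ∣ T := by
    obtain ⟨⟨a, b, c, e⟩, rfl⟩ := hy
    have eT : (T : ℝ) = 2 * a + e := by
      rw [← hT]
      simp [hurMat, realQuat, trace_fin_two]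
      ring
    have eT' : T = 2 * a + e := by exact_mod_cast eT
    rw [det_hurMat] at hN
    have eN : hurNorm (a, b, c, e) = N := by exact_mod_cast hN
    have h1 : (p : ℤ) ∣ hurNorm (a, b, c, e) := eN ▸ (dvd_pow_self _ two_ne_zero).trans h
    rw [eT']
    rcases hp with rfl | rfl
    · exact two_dvd_trace h1
    · exact three_dvd_trace h1
  have := div_mem hp hy hT hN (k := 0) (by simpa using htr) (by simpa using h)
  simpa using this

theorem cases_of_dvd_six {d : ℕ} (hd : d ∣ 6) : d = 1 ∨ d = 2 ∨ d = 3 ∨ d = 6 := by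
  have := Nat.le_of_dvd (by norm_num) hd
  interval_cases d <;> simp_all

theorem div_mem_six {d : ℕ} (hd : d ∣ 6) {y : Matrix (Fin 2) (Fin 2) ℝ} (hy : y ∈ order) {N : ℤ}
    (hN : y.det = N) (h : (d : ℤ) ^ 2 ∣ N) : (d : ℝ)⁻¹ • y ∈ order := by
  rcases cases_of_dvd_six hd with rfl | rfl | rfl | rfl
  · simpa using hy
  · exact div_mem_prime (.inl rfl) hy hN h
  · exact div_mem_prime (.inr rfl) hy hN h
  · obtain ⟨M, rfl⟩ := h
    have h2 := div_mem_prime (.inl rfl) hy hN ⟨9 * M, by push_cast; ring⟩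
    have h3 := div_mem_prime (p := 3) (.inr rfl) h2 (N := 9 * M)
      (by rw [det_smul, hN, Fintype.card_fin]; push_cast; ring) ⟨M, by push_cast; ring⟩
    rw [smul_smul] at h3
    convert h3 using 2
    norm_num

/-- Removing a square supported at the ramified primes. -/
theorem normSet_sq_le {m k : ℕ} (hk : k ∣ 6) : normSet (m * k ^ 2) ⊆ normSet m := fun g hg => by
  have hk0 : (k : ℝ) ≠ 0 := Nat.cast_ne_zero.2 fun h => by simp [h] at hk
  have h := div_mem_six hk hg (N := ((m * k ^ 2 : ℕ) : ℤ))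
    (by rw [det_sqrt_smul]; norm_cast) ⟨m, by push_cast; ring⟩
  show Real.sqrt m • (g : Matrix (Fin 2) (Fin 2) ℝ) ∈ order
  rw [smul_smul] at h
  convert h using 2
  push_cast
  rw [Real.sqrt_mul (Nat.cast_nonneg m), Real.sqrt_sq (Nat.cast_nonneg k), mul_comm (Real.sqrt m),
    ← mul_assoc, inv_mul_cancel₀ hk0, one_mul]

theorem exists_mul_le {d d' : ℕ} (hd : d ∣ 6) (hd' : d' ∣ 6) :
    ∃ e, e ∣ 6 ∧ normSet (d * d') ⊆ normSet e := by
  refine ⟨d / d.gcd d' * (d' / d.gcd d'), ?_, ?_⟩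
  · rcases cases_of_dvd_six hd with rfl | rfl | rfl | rfl <;>
      rcases cases_of_dvd_six hd' with rfl | rfl | rfl | rfl <;> decide
  · have h : d * d' = d / d.gcd d' * (d' / d.gcd d') * d.gcd d' ^ 2 := by
      rw [mul_assoc, sq, ← mul_assoc (d' / _), Nat.div_mul_cancel (Nat.gcd_dvd_right d d'),
        mul_comm d', ← mul_assoc, Nat.div_mul_cancel (Nat.gcd_dvd_left d d')]
    conv_lhs => rw [h]
    exact normSet_sq_le ((Nat.gcd_dvd_left d d').trans hd)

/-- **There is one class of each norm dividing `6`.** -/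
theorem mul_inv_mem {d : ℕ} (hd : d ∣ 6) {g h : SL(2, ℝ)} (hg : g ∈ normSet d)
    (hh : h ∈ normSet d) : g * h⁻¹ ∈ orderUnits := by
  have := normSet_sq_le (m := 1) hd (show g * h⁻¹ ∈ normSet (1 * d ^ 2) by
    rw [one_mul, sq]
    exact mul_mem_normSet hg (inv_mem_normSet hh))
  rwa [normSet_one] at this

theorem sq_mem {d : ℕ} (hd : d ∣ 6) {g : SL(2, ℝ)} (hg : g ∈ normSet d) :
    g * g ∈ orderUnits := by
  have := normSet_sq_le (m := 1) hd (show g * g ∈ normSet (1 * d ^ 2) by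
    rw [one_mul, sq]
    exact mul_mem_normSet hg hg)
  rwa [normSet_one] at this

theorem commutator_mem {d d' : ℕ} (hd : d ∣ 6) (hd' : d' ∣ 6) {g h : SL(2, ℝ)} (hg : g ∈ normSet d)
    (hh : h ∈ normSet d') : g * h * (h * g)⁻¹ ∈ orderUnits := by
  obtain ⟨e, he, hle⟩ := exists_mul_le hd hd'
  exact mul_inv_mem he (hle (mul_mem_normSet hg hh))
    (hle (by rw [mul_comm d]; exact mul_mem_normSet hh hg))

/-- **Conjugation preserves the order.** -/
theorem conj_mem {d : ℕ} (hd : d ∣ 6) {g : SL(2, ℝ)} (hg : g ∈ normSet d)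
    {y : Matrix (Fin 2) (Fin 2) ℝ} (hy : y ∈ order) :
    (g : Matrix (Fin 2) (Fin 2) ℝ) * y * ((g⁻¹ : SL(2, ℝ)) : Matrix (Fin 2) (Fin 2) ℝ) ∈
      order := by
  obtain ⟨N, hN⟩ := exists_det hy
  have hd0 : (d : ℝ) ≠ 0 := Nat.cast_ne_zero.2 fun h => by simp [h] at hd
  have hm := mul_mem (mul_mem hg hy) (inv_mem_normSet hg)
  have h := div_mem_six hd hm (N := (d : ℤ) ^ 2 * N)
    (by rw [det_mul, det_mul, det_sqrt_smul, det_sqrt_smul, hN]; push_cast; ring)
    (dvd_mul_right _ _)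
  simp only [Matrix.smul_mul, Matrix.mul_smul, smul_smul] at h
  rwa [Real.mul_self_sqrt (Nat.cast_nonneg d), inv_mul_cancel₀ hd0, one_smul] at h

theorem conj_mem_normSet {d : ℕ} (hd : d ∣ 6) {g r : SL(2, ℝ)} (hg : g ∈ normSet d) {n : ℕ}
    (hr : r ∈ normSet n) : g * r * g⁻¹ ∈ normSet n := by
  have h := conj_mem hd hg hr
  show Real.sqrt n • ((g * r * g⁻¹ : SL(2, ℝ)) : Matrix (Fin 2) (Fin 2) ℝ) ∈ order
  rw [SpecialLinearGroup.coe_mul, SpecialLinearGroup.coe_mul]
  rwa [Matrix.mul_smul, Matrix.smul_mul] at h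

theorem exists_class {d : ℕ} (hd : d ∣ 6) : ∃ g, g ∈ normSet d := by
  rcases cases_of_dvd_six hd with rfl | rfl | rfl | rfl
  · exact ⟨1, by rw [normSet_one]; exact one_mem _⟩
  · obtain ⟨g, hg, -⟩ := exists_normSet (n := 2) (x := hurMat (1, 1, 0, 0)) ⟨_, rfl⟩
      (by simp [det_hurMat, hurNorm])
    exact ⟨g, hg⟩
  · obtain ⟨g, hg, -⟩ := exists_normSet (n := 3) (x := hurMat (1, 1, -1, 1)) ⟨_, rfl⟩
      (by simp [det_hurMat, hurNorm])
    exact ⟨g, hg⟩
  · obtain ⟨g, hg, -⟩ := exists_normSet (n := 6) (x := hurMat (0, 3, 1, 0)) ⟨_, rfl⟩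
      (by simp [det_hurMat, hurNorm])
    exact ⟨g, hg⟩

end FA.QuaternionNormalizer

end
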