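import Fermat.Agent.QuaternionNormalizer.Classes
import Fermat.Agent.CocompactHurwitz.Normalizer
import Fermat.Agent.QuaternionApprox.Reduction

/-!
# The normaliser of the units

The units of norm one span the order, so a normalising matrix preserves it; averaging over
`1, i, j, i j` shows that a multiple of it lies in the order.  Divided by rational integers its
norm has no prime beyond `3` and is squarefree, so it divides `6`.
-/

set_option autoImplicit false
set_option linter.unusedSectionVars false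
set_option linter.style.haveILetI false

noncomputable section

open Matrix Set
open scoped MatrixGroups
open FA.Horocycle FA.QuaternionHecke FA.QuaternionApprox

namespace FA.QuaternionNormalizer

/-- The normaliser of the norm-one units. -/
abbrev unitsNormalizer : Subgroup SL(2, ℝ) := Subgroup.normalizer (orderUnits : Set SL(2, ℝ))

instance discreteTopology_unitsNormalizer : DiscreteTopology unitsNormalizer :=
  CocompactHurwitz.discreteTopology_normalizer

theorem le_unitsNormalizer : orderUnits ≤ unitsNormalizer := Subgroup.le_normalizer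

instance compactSpace_unitsNormalizer : CompactSpace (SL(2, ℝ) ⧸ unitsNormalizer) :=
  CocompactHurwitz.compactSpace_of_le le_unitsNormalizer

theorem mem_unitsNormalizer_of {d : ℕ} (hd : d ∣ 6) {g : SL(2, ℝ)} (hg : g ∈ normSet d) :
    g ∈ unitsNormalizer := by
  refine Subgroup.mem_normalizer_iff.2 fun h => ⟨fun hh => ?_, fun hh => ?_⟩
  · show g * h * g⁻¹ ∈ orderUnits
    rw [mem_orderUnits, SpecialLinearGroup.coe_mul, SpecialLinearGroup.coe_mul]
    exact conj_mem hd hg hh
  · have h2 := conj_mem hd (inv_mem_normSet hg) (mem_orderUnits.1 hh)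
    rw [inv_inv, ← SpecialLinearGroup.coe_mul, ← SpecialLinearGroup.coe_mul,
      show g⁻¹ * (g * h * g⁻¹) * g = h by group] at h2
    exact h2

/-- The norm-one units span the order. -/
theorem eq_combination (q : Quad) :
    hurMat q = ((q.1 - q.2.2.2 - q.2.2.1 : ℤ) : ℝ) • hurMat (1, 0, 0, 0) +
      ((q.2.1 - 2 * q.2.2.1 : ℤ) : ℝ) • hurMat (0, 1, 0, 0) +
      ((q.2.2.2 + q.2.2.1 : ℤ) : ℝ) • hurMat (1, 0, 0, 1) +
      (q.2.2.1 : ℝ) • hurMat (0, 2, 1, -1) := by
  simp only [hurMat, smul_realQuat, realQuat_add]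
  push_cast
  congr 1 <;> ring

theorem conj_order {g : SL(2, ℝ)} (hg : g ∈ unitsNormalizer) {y : Matrix (Fin 2) (Fin 2) ℝ}
    (hy : y ∈ order) :
    (g : Matrix (Fin 2) (Fin 2) ℝ) * y * ((g⁻¹ : SL(2, ℝ)) : Matrix (Fin 2) (Fin 2) ℝ) ∈
      order := by
  have hu : ∀ q : Quad, hurNorm q = 1 →
      (g : Matrix (Fin 2) (Fin 2) ℝ) * hurMat q *
        ((g⁻¹ : SL(2, ℝ)) : Matrix (Fin 2) (Fin 2) ℝ) ∈ order := fun q hq => by
    have hd : (hurMat q).det = 1 := by rw [det_hurMat, hq, Int.cast_one]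
    have hmem : (⟨hurMat q, hd⟩ : SL(2, ℝ)) ∈ orderUnits := ⟨q, rfl⟩
    have := mem_orderUnits.1 ((Subgroup.mem_normalizer_iff.1 hg _).1 hmem)
    rwa [SpecialLinearGroup.coe_mul, SpecialLinearGroup.coe_mul] at this
  obtain ⟨q, rfl⟩ := hy
  rw [eq_combination q]
  simp only [Matrix.mul_add, Matrix.add_mul, Matrix.mul_smul, Matrix.smul_mul,
    Int.cast_smul_eq_zsmul]
  exact add_mem (add_mem (add_mem (zsmul_mem (hu _ (by norm_num [hurNorm])) _)
    (zsmul_mem (hu _ (by norm_num [hurNorm])) _)) (zsmul_mem (hu _ (by norm_num [hurNorm])) _))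
    (zsmul_mem (hu _ (by norm_num [hurNorm])) _)

/-- Averaging over `1, i, j, i j` leaves the trace. -/
theorem average (w : Matrix (Fin 2) (Fin 2) ℝ) :
    (3 : ℝ) • w - (3 : ℝ) • (hurMat (0, 1, 0, 0) * w * hurMat (0, 1, 0, 0)) +
        hurMat (0, 0, 1, 0) * w * hurMat (0, 0, 1, 0) +
        hurMat (0, 1, 0, 0) * hurMat (0, 0, 1, 0) * w *
          (hurMat (0, 1, 0, 0) * hurMat (0, 0, 1, 0)) =
      (6 * w.trace) • 1 := by
  have h := Real.mul_self_sqrt (show (0 : ℝ) ≤ 3 by norm_num)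
  ext i j
  fin_cases i <;> fin_cases j <;>
    simp [hurMat, realQuat, Matrix.mul_apply, Matrix.vecMul, dotProduct, Fin.sum_univ_two,
      trace_fin_two] <;> grind

theorem exists_trace_ne_zero (g : SL(2, ℝ)) :
    ∃ y ∈ order, (((g⁻¹ : SL(2, ℝ)) : Matrix (Fin 2) (Fin 2) ℝ) * y).trace ≠ 0 := by
  by_contra! h
  set m : Matrix (Fin 2) (Fin 2) ℝ := ((g⁻¹ : SL(2, ℝ)) : Matrix (Fin 2) (Fin 2) ℝ) with hm
  have hdet : m.det = 1 := (g⁻¹).prop
  have hs : Real.sqrt 3 ≠ 0 := by positivity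
  have h1 := h _ (⟨(1, 0, 0, 0), rfl⟩ : hurMat (1, 0, 0, 0) ∈ order)
  have h2 := h _ (⟨(0, 1, 0, 0), rfl⟩ : hurMat (0, 1, 0, 0) ∈ order)
  have h3 := h _ (⟨(0, 0, 1, 0), rfl⟩ : hurMat (0, 0, 1, 0) ∈ order)
  have h4 := h _ (⟨(-1, -1, -1, 2), rfl⟩ : hurMat (-1, -1, -1, 2) ∈ order)
  simp [hurMat, realQuat, Matrix.mul_apply, Fin.sum_univ_two, trace_fin_two] at h1 h2 h3 h4
  have a : m 0 0 - m 1 1 = 0 :=
    (mul_eq_zero.1 (show (m 0 0 - m 1 1) * Real.sqrt 3 = 0 by linarith)).resolve_right hs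
  have b : m 0 1 + m 1 0 = 0 :=
    (mul_eq_zero.1 (show (m 0 1 + m 1 0) * Real.sqrt 3 = 0 by linarith)).resolve_right hs
  rw [det_fin_two, show m 0 0 = 0 by linarith, show m 0 1 = 0 by linarith] at hdet
  simp at hdet

/-- A multiple of a normalising element lies in the order. -/
theorem exists_smul_mem {g : SL(2, ℝ)} (hg : g ∈ unitsNormalizer) :
    ∃ c : ℝ, c ≠ 0 ∧ c • (g : Matrix (Fin 2) (Fin 2) ℝ) ∈ order := by
  obtain ⟨y, hy, ht⟩ := exists_trace_ne_zero g
  set G : Matrix (Fin 2) (Fin 2) ℝ := (g : Matrix (Fin 2) (Fin 2) ℝ)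
  set m : Matrix (Fin 2) (Fin 2) ℝ := ((g⁻¹ : SL(2, ℝ)) : Matrix (Fin 2) (Fin 2) ℝ)
  have hGm : G * m = 1 := by
    rw [← SpecialLinearGroup.coe_mul, mul_inv_cancel, SpecialLinearGroup.coe_one]
  set I := hurMat (0, 1, 0, 0)
  set J := hurMat (0, 0, 1, 0)
  have hI : I ∈ order := ⟨_, rfl⟩
  have hJ : J ∈ order := ⟨_, rfl⟩
  refine ⟨6 * (m * y).trace, mul_ne_zero (by norm_num) ht, ?_⟩
  have key : (6 * (m * y).trace) • G = (3 : ℝ) • y - (3 : ℝ) • (G * I * m * y * I) +
      G * J * m * y * J + G * (I * J) * m * y * (I * J) := by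
    have e := congrArg (G * ·) (average (m * y))
    simp only [Matrix.mul_add, Matrix.mul_sub, Matrix.mul_smul, Matrix.mul_one] at e
    rw [← e]
    simp only [← Matrix.mul_assoc, hGm, Matrix.one_mul]
    rfl
  rw [key]
  have hc : ∀ u ∈ order, G * u * m ∈ order := fun u hu => conj_order hg hu
  refine add_mem (add_mem (sub_mem ?_ ?_) (mul_mem (mul_mem (hc J hJ) hy) hJ))
    (mul_mem (mul_mem (hc _ (mul_mem hI hJ)) hy) (mul_mem hI hJ))
  · exact_mod_cast intCast_smul_mem hy 3
  · exact_mod_cast intCast_smul_mem (mul_mem (mul_mem (hc I hI) hy) hI) 3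

theorem dvd_six_or_exists_prime {n : ℕ} :
    n ∣ 6 ∨ ∃ p, p.Prime ∧ p ∣ n ∧ (5 ≤ p ∨ p ^ 2 ∣ n) := by
  by_contra! h
  refine h.1 ?_
  have hsq : Squarefree n := Nat.squarefree_iff_prime_squarefree.2 fun p hp hpp =>
    (h.2 p hp ((dvd_mul_right p p).trans hpp)).2 (by rwa [sq])
  rw [← Nat.prod_primeFactors_of_squarefree hsq]
  refine (Finset.prod_dvd_prod_of_subset _ ({2, 3} : Finset ℕ) (fun p : ℕ => p)
    fun p hp => ?_).trans
    (by norm_num)
  have hpp := Nat.prime_of_mem_primeFactors hp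
  have := (h.2 p hpp (Nat.dvd_of_mem_primeFactors hp)).1
  have := hpp.two_le
  interval_cases p <;> simp_all (config := { decide := true })

theorem exists_normSet_six : ∀ (n : ℕ), 0 < n → ∀ g ∈ unitsNormalizer, g ∈ normSet n →
    ∃ d, d ∣ 6 ∧ g ∈ normSet d := by
  intro n
  induction n using Nat.strong_induction_on with
  | _ n ih =>
    intro hn g hgN hg
    rcases dvd_six_or_exists_prime (n := n) with h | ⟨p, hp, hpn, h⟩
    · exact ⟨n, h, hg⟩
    set X := Real.sqrt n • (g : Matrix (Fin 2) (Fin 2) ℝ) with hX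
    have hp0 : (p : ℝ) ≠ 0 := Nat.cast_ne_zero.2 hp.ne_zero
    suffices hdiv : ∃ z ∈ order, X = (p : ℝ) • z by
      obtain ⟨z, hz, e⟩ := hdiv
      obtain ⟨M, hM⟩ := exists_det hz
      have hdet := congrArg Matrix.det e
      rw [hX, det_sqrt_smul, det_smul, hM, Fintype.card_fin] at hdet
      have hnM : (n : ℤ) = (p : ℤ) ^ 2 * M := by exact_mod_cast hdet
      obtain ⟨m, rfl⟩ : ∃ m : ℕ, M = m := by
        refine ⟨M.toNat, (Int.toNat_of_nonneg ?_).symm⟩
        by_contra hneg
        have : (p : ℤ) ^ 2 * M ≤ 0 := mul_nonpos_of_nonneg_of_nonpos (sq_nonneg _) (by omega)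
        omega
      have hnm : n = p ^ 2 * m := by exact_mod_cast hnM
      have hm : 0 < m := Nat.pos_of_ne_zero fun h0 => by simp [h0] at hnm; omega
      have h4 : 4 ≤ p ^ 2 := by nlinarith [hp.two_le]
      refine ih m (by nlinarith) hm g hgN ?_
      show Real.sqrt m • (g : Matrix (Fin 2) (Fin 2) ℝ) ∈ order
      have e2 : X = (p : ℝ) • (Real.sqrt m • (g : Matrix (Fin 2) (Fin 2) ℝ)) := by
        rw [hX, smul_smul, hnm]
        push_cast
        rw [Real.sqrt_mul (sq_nonneg _), Real.sqrt_sq (Nat.cast_nonneg p)]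
      rwa [← smul_right_injective _ hp0 (e.symm.trans e2)]
    by_cases hp5 : 5 ≤ p
    · haveI : Fact p.Prime := ⟨hp⟩
      set x : order := ⟨X, hg⟩
      set x' : order := ⟨_, adjugate_mem hg⟩
      have hzero : ∀ y : order, toMod p hp5 (x * y * x') = 0 := fun y => by
        refine (toMod_eq_zero_iff p hp5 _).2 ⟨((n / p : ℕ) : ℤ) • ((g : Matrix (Fin 2) (Fin 2) ℝ) *
          (y : Matrix (Fin 2) (Fin 2) ℝ) * ((g⁻¹ : SL(2, ℝ)) : Matrix (Fin 2) (Fin 2) ℝ)),
          zsmul_mem (conj_order hgN y.2) _, ?_⟩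
        show X * (y : Matrix (Fin 2) (Fin 2) ℝ) * adjugate X - 0 = _
        rw [sub_zero, hX, adjugate_smul, Fintype.card_fin, pow_one,
          ← SpecialLinearGroup.coe_inv, Matrix.smul_mul, Matrix.smul_mul, Matrix.mul_smul,
          smul_smul, Real.mul_self_sqrt (Nat.cast_nonneg n), ← Int.cast_smul_eq_zsmul ℝ,
          smul_smul, Int.cast_natCast, ← Nat.cast_mul, Nat.mul_div_cancel' hpn]
      set M := toMod p hp5 x with hM
      have hadj : toMod p hp5 x' = adjugate M := toMod_adjugate p hp5 x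
      have hall : ∀ A : Matrix (Fin 2) (Fin 2) (ZMod p), M * A * adjugate M = 0 := fun A => by
        obtain ⟨y, rfl⟩ := toMod_surjective p hp5 A
        rw [← hadj, hM, ← map_mul, ← map_mul]
        exact hzero y
      have hM0 : M = 0 := by
        by_contra hne
        obtain ⟨i, j, hij⟩ : ∃ i j, M i j ≠ 0 := by
          by_contra! h0
          exact hne (Matrix.ext h0)
        refine hne (Matrix.ext fun a b => ?_)
        have e0 : ∀ l m, adjugate M l m = 0 := fun l m => by
          have := congrFun (congrFun (hall (Matrix.single j l 1)) i) m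
          rw [Matrix.mul_assoc, Matrix.mul_apply, Finset.sum_eq_single j (fun u _ hu => by
            simp [Matrix.single_mul_apply_of_ne, hu]) (by simp)] at this
          simpa [hij] using this
        have e1 := adjugate_fin_two M
        rw [show adjugate M = 0 from Matrix.ext e0] at e1
        fin_cases a <;> fin_cases b
        · simpa using (congrFun (congrFun e1 1) 1).symm
        · simpa using (congrFun (congrFun e1 0) 1).symm
        · simpa using (congrFun (congrFun e1 1) 0).symm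
        · simpa using (congrFun (congrFun e1 0) 0).symm
      obtain ⟨z, hz, e⟩ := (toMod_eq_zero_iff p hp5 x).1 hM0
      exact ⟨z, hz, by simpa using e⟩
    · have hp23 : p = 2 ∨ p = 3 := by
        have := hp.two_le
        have : p < 5 := not_le.1 hp5
        interval_cases p <;> simp_all (config := { decide := true })
      refine ⟨_, div_mem_prime hp23 hg (N := (n : ℤ)) (by rw [det_sqrt_smul]; norm_cast)
        (by exact_mod_cast h.resolve_left hp5), ?_⟩
      rw [smul_inv_smul₀ hp0]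

theorem mem_unitsNormalizer {g : SL(2, ℝ)} :
    g ∈ unitsNormalizer ↔ ∃ d, d ∣ 6 ∧ g ∈ normSet d := by
  refine ⟨fun hg => ?_, fun ⟨d, hd, h⟩ => mem_unitsNormalizer_of hd h⟩
  obtain ⟨c, hc, hmem⟩ := exists_smul_mem hg
  obtain ⟨N, hN⟩ := exists_det hmem
  rw [det_smul, g.prop, mul_one, Fintype.card_fin] at hN
  have hN0 : 0 < N := by
    have : (0 : ℝ) < N := hN ▸ by positivity
    exact_mod_cast this
  obtain ⟨n, rfl⟩ : ∃ n : ℕ, N = n := ⟨N.toNat, (Int.toNat_of_nonneg hN0.le).symm⟩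
  refine exists_normSet_six n (by exact_mod_cast hN0) g hg ?_
  show Real.sqrt n • (g : Matrix (Fin 2) (Fin 2) ℝ) ∈ order
  push_cast at hN
  rw [← hN, Real.sqrt_sq_eq_abs]
  rcases abs_cases c with ⟨e, -⟩ | ⟨e, -⟩ <;> rw [e]
  · exact hmem
  · rw [neg_smul]
    exact neg_mem hmem

end FA.QuaternionNormalizer

end
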