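import Fermat.Agent.QuaternionNormalizer.Normalizer
import Fermat.Agent.QuaternionHecke.Hecke

/-!
# The Atkin–Lehner operators

The slash action of the class of norm `d ∣ 6` is an involution of the forms, and the classes
commute.  Conjugation by the class preserves the elements of each norm, so carries representatives
of norm `n` to representatives, and the involution commutes with `T n`.
-/

set_option autoImplicit false
set_option linter.unusedSectionVars false
set_option linter.style.haveILetI false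

noncomputable section

open Matrix Set
open UpperHalfPlane hiding I
open FA.CocompactForms FA.QuaternionHecke
open scoped MatrixGroups

namespace FA.QuaternionNormalizer

open Classical in
/-- A representative of the class of norm `d`. -/
def alRep (d : ℕ) : SL(2, ℝ) := if h : d ∣ 6 then (exists_class h).choose else 1

theorem alRep_mem {d : ℕ} (hd : d ∣ 6) : alRep d ∈ normSet d := by
  rw [alRep, dif_pos hd]
  exact (exists_class hd).choose_spec

theorem isForm_slash {k : ℤ} {g : SL(2, ℝ)} (hg : g ∈ unitsNormalizer) {f : ℍ → ℂ}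
    (hf : IsForm orderUnits k f) : IsForm orderUnits k (slash k g f) := by
  refine ⟨mdiff_slash k g hf.1, fun γ hγ z => ?_⟩
  have h : slash k γ (slash k g f) = slash k g f := by
    rw [slash_slash, show g * γ = g * γ * g⁻¹ * g by group]
    exact slash_units_mul hf ((Subgroup.mem_normalizer_iff.1 hg γ).1 hγ) g
  conv_rhs => rw [← h]
  rw [slash_apply k γ, ← mul_assoc, ← zpow_add₀ (jac_ne_zero γ z.im_ne_zero), add_neg_cancel,
    zpow_zero, one_mul]

theorem slash_eq_of_same {k : ℤ} {d : ℕ} (hd : d ∣ 6) {g h : SL(2, ℝ)} (hg : g ∈ normSet d)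
    (hh : h ∈ normSet d) {f : ℍ → ℂ} (hf : IsForm orderUnits k f) :
    slash k g f = slash k h f := by
  have h1 := slash_units_mul hf (mul_inv_mem hd hg hh) h
  rwa [inv_mul_cancel_right] at h1

theorem slash_comp_self {k : ℤ} {d : ℕ} (hd : d ∣ 6) {g : SL(2, ℝ)} (hg : g ∈ normSet d)
    {f : ℍ → ℂ} (hf : IsForm orderUnits k f) : slash k g (slash k g f) = f := by
  rw [slash_slash]
  exact slash_eq_self hf (sq_mem hd hg)

theorem slash_comm {k : ℤ} {d d' : ℕ} (hd : d ∣ 6) (hd' : d' ∣ 6) {g h : SL(2, ℝ)}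
    (hg : g ∈ normSet d) (hh : h ∈ normSet d') {f : ℍ → ℂ} (hf : IsForm orderUnits k f) :
    slash k g (slash k h f) = slash k h (slash k g f) := by
  rw [slash_slash, slash_slash]
  conv_lhs => rw [show h * g = h * g * (g * h)⁻¹ * (g * h) by group]
  exact slash_units_mul hf (commutator_mem hd' hd hh hg) _

theorem slash_heckeFun_comm {k : ℤ} {n : ℕ} [NeZero n] {d : ℕ} (hd : d ∣ 6) {g : SL(2, ℝ)}
    (hg : g ∈ normSet d) {f : ℍ → ℂ} (hf : IsForm orderUnits k f) :
    slash k g (heckeFun k n f) = heckeFun k n (slash k g f) := by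
  classical
  have hR := isTransversal_reps n
  have hgN : g ∈ unitsNormalizer := mem_unitsNormalizer_of hd hg
  have hT : IsTransversal (normSet n) ((reps n).image fun r => g⁻¹ * r * g) := by
    refine ⟨fun x hx => ?_, fun u hu => ?_⟩
    · obtain ⟨r, hr, rfl⟩ := Finset.mem_image.1 hx
      have := conj_mem_normSet hd (inv_mem_normSet hg) (hR.1 r hr)
      rwa [inv_inv] at this
    · obtain ⟨r, ⟨hr, hur⟩, huniq⟩ := hR.2 (g * u * g⁻¹) (conj_mem_normSet hd hg hu)
      refine ⟨g⁻¹ * r * g, ⟨Finset.mem_image_of_mem _ hr, ?_⟩, ?_⟩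
      · rw [show u * (g⁻¹ * r * g)⁻¹ = g⁻¹ * (g * u * g⁻¹ * r⁻¹) * g by group]
        refine (Subgroup.mem_normalizer_iff.1 hgN _).2 ?_
        rwa [show g * (g⁻¹ * (g * u * g⁻¹ * r⁻¹) * g) * g⁻¹ = g * u * g⁻¹ * r⁻¹ by group]
      · rintro x ⟨hx, hux⟩
        obtain ⟨s, hs, rfl⟩ := Finset.mem_image.1 hx
        show g⁻¹ * s * g = g⁻¹ * r * g
        rw [huniq s ⟨hs, ?_⟩]
        rw [show g * u * g⁻¹ * s⁻¹ = g * (u * (g⁻¹ * s * g)⁻¹) * g⁻¹ by group]
        exact (Subgroup.mem_normalizer_iff.1 hgN _).1 hux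
  rw [heckeFun_eq_sum (isForm_slash hgN hf) hT, heckeFun_apply, map_sum,
    Finset.sum_image fun r _ s _ h => mul_left_cancel (mul_right_cancel h)]
  refine Finset.sum_congr rfl fun r _ => ?_
  rw [slash_slash, slash_slash, show g * (g⁻¹ * r * g) = r * g by group]

/-- **The operator of norm `d`.** -/
def atkinLehner (k : ℤ) (d : {d : ℕ // d ∣ 6}) : Module.End ℂ (forms orderUnits k) :=
  (slash k (alRep d)).restrict fun _ hf =>
    isForm_slash (mem_unitsNormalizer_of d.2 (alRep_mem d.2)) hf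

theorem coe_atkinLehner (k : ℤ) (d : {d : ℕ // d ∣ 6}) (f : forms orderUnits k) {g : SL(2, ℝ)}
    (hg : g ∈ normSet (d : ℕ)) :
    ((atkinLehner k d f : forms orderUnits k) : ℍ → ℂ) = slash k g f :=
  slash_eq_of_same d.2 (alRep_mem d.2) hg f.2

theorem atkinLehner_sq (k : ℤ) (d : {d : ℕ // d ∣ 6}) :
    atkinLehner k d * atkinLehner k d = 1 :=
  LinearMap.ext fun f => Subtype.ext (slash_comp_self d.2 (alRep_mem d.2) f.2)

theorem atkinLehner_comm (k : ℤ) (d d' : {d : ℕ // d ∣ 6}) :
    Commute (atkinLehner k d) (atkinLehner k d') :=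
  LinearMap.ext fun f => Subtype.ext (slash_comm d.2 d'.2 (alRep_mem d.2) (alRep_mem d'.2) f.2)

theorem atkinLehner_hecke (k : ℤ) (d : {d : ℕ // d ∣ 6}) (n : ℕ+) :
    Commute (atkinLehner k d) (hecke k n) := by
  haveI : NeZero (n : ℕ) := ⟨n.ne_zero⟩
  exact LinearMap.ext fun f => Subtype.ext (slash_heckeFun_comm d.2 (alRep_mem d.2) f.2)

end FA.QuaternionNormalizer

end
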